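import Fermat.Agent.S37.H518.Charts

/-!
# S37 / node_rim (helper638): the field `fin` of `H518.Chart` WITHOUT base change or normality

`Chart.fin` : for monic `g ∈ A[X]` the quotient `B / g(x) B` is a finitely generated `A`-module.
Here `A` is an arbitrary valuation ring (not noetherian, value group possibly dense), so `fin`
cannot be obtained from noetherianity, and "`B = A ⊗ (ℤ_(ℓ)-model)`" would need geometric normality
of the special fibre.  We prove instead:

`fin_of_content` : `Chart.fin` follows from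
* `content` : every `0 ≠ b ∈ B` is `c • b'` with `c ∈ A`, `b' ∈ B`, `ρ b' ≠ 0`
  (content of a `q`-series + saturation of `B`, = the `q`-expansion principle);
* `hgen`    : any `n + 1` elements of `B` are linearly dependent over `L[x]` (generic rank `≤ n`);
* `hspec`   : `ρ B` is a free `k[x̄]`-module with a basis of `n` elements `ρ (c s)`, `c s ∈ B`.

Proof: `r = n · deg g`, `e = (x^a c_s)`.  For `z ∈ B` the `r + 1` elements `z, e_1, …, e_r` are
`L`-dependent modulo `g · L[x]⟨…⟩` (PID count on the generic fibre); scale the relation so that all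
coefficients lie in `A` and one of them is `1`; by `content` the relation holds in `B` modulo
`g B`; reducing mod `𝔪` and using that the `ρ e_i` are independent modulo `ḡ · ρ B` shows that the
coefficient of `z` is a unit.
-/

set_option autoImplicit false
set_option linter.style.haveILetI false

noncomputable section

namespace Fermat.Agent.S37.H638.Fin

open Polynomial Fermat.Agent.S37.H518

variable {L : Type*} [Field L] {A : ValuationSubring L} {k : Type*} [Field k]
variable {F : Type*} [Field F] [Algebra L F] {Fk : Type*} [Field Fk] [Algebra k Fk]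
variable {V : Type*} [CommRing V] [Algebra A V]
variable {π : A →+* k} {ι : V →+* F} {ρ : V →+* Fk}

theorem iota_aeval (h : RedStr π ι ρ) (x : V) (p : A[X]) :
    ι (aeval x p) = aeval (ι x) (p.map (algebraMap A L)) := by
  rw [aeval_def, aeval_def, hom_eval₂, eval₂_map]
  congr 1
  ext a
  simp only [RingHom.comp_apply]
  exact h.iota_alg a

theorem rho_aeval (h : RedStr π ι ρ) (x : V) (p : A[X]) :
    ρ (aeval x p) = aeval (ρ x) (p.map π) := by
  rw [aeval_def, aeval_def, hom_eval₂, eval₂_map]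
  congr 1
  ext a
  simp only [RingHom.comp_apply]
  exact h.rho_alg a

theorem aeval_mem {B : Subalgebra A V} {x : V} (hx : x ∈ B) (p : A[X]) : aeval x p ∈ B := by
  have := (aeval (⟨x, hx⟩ : B) p).2
  rwa [← Subalgebra.aeval_coe] at this

/-- The polynomial with prescribed coefficients in degrees `< d`. -/
def polyOf {R : Type*} [CommRing R] {d : ℕ} (γ : Fin d → R) : R[X] :=
  ∑ a : Fin d, C (γ a) * X ^ (a : ℕ)

theorem polyOf_degree_lt {R : Type*} [CommRing R] {d : ℕ} (γ : Fin d → R) :
    (polyOf γ).degree < d := degree_sum_fin_lt γ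

theorem polyOf_coeff {R : Type*} [CommRing R] {d : ℕ} (γ : Fin d → R) (a : Fin d) :
    (polyOf γ).coeff (a : ℕ) = γ a := by
  classical
  unfold polyOf
  rw [finsetSum_coeff, Finset.sum_eq_single a]
  · simp
  · intro b _ hb
    rw [coeff_C_mul, coeff_X_pow, if_neg, mul_zero]
    exact fun h => hb (Fin.ext h.symm)
  · intro h; exact absurd (Finset.mem_univ a) h

theorem aeval_polyOf {R S : Type*} [CommRing R] [CommRing S] [Algebra R S] {d : ℕ}
    (γ : Fin d → R) (y : S) :
    aeval y (polyOf γ) = ∑ a : Fin d, algebraMap R S (γ a) * y ^ (a : ℕ) := by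
  unfold polyOf
  simp [map_sum]

/-- **Special fibre.**  If `ρ B` is free over `k[x̄]` with basis `ρ (c s)`, then the elements
`x^a c_s` (`a < deg g`) are `k`-linearly independent modulo `ḡ(x̄) · ρ B`. -/
theorem indep_mod {B : Subalgebra A V} {x : V} {n : ℕ}
    (c : Fin n → V)
    (hspan : ∀ b ∈ B, ∃ p : Fin n → k[X], ρ b = ∑ s, aeval (ρ x) (p s) * ρ (c s))
    (hind : ∀ p : Fin n → k[X], ∑ s, aeval (ρ x) (p s) * ρ (c s) = 0 → p = 0)
    (g : A[X]) (hg : g.Monic) (γ : Fin n → Fin g.natDegree → k) (z : V) (hz : z ∈ B)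
    (hrel : ∑ s, ∑ a, algebraMap k Fk (γ s a) * ρ (x ^ (a : ℕ) * c s)
      = aeval (ρ x) (g.map π) * ρ z) :
    γ = 0 := by
  obtain ⟨q, hq⟩ := hspan z hz
  have hgm : (g.map π).Monic := hg.map π
  have hdeg : (g.map π).natDegree = g.natDegree := hg.natDegree_map π
  have key : ∀ s, polyOf (γ s) - g.map π * q s = 0 := by
    have := hind (fun s => polyOf (γ s) - g.map π * q s) (by
      simp only [map_sub, map_mul, sub_mul, Finset.sum_sub_distrib]
      rw [sub_eq_zero]
      have e1 : ∑ s, aeval (ρ x) (polyOf (γ s)) * ρ (c s)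
          = ∑ s, ∑ a, algebraMap k Fk (γ s a) * ρ (x ^ (a : ℕ) * c s) := by
        refine Finset.sum_congr rfl fun s _ => ?_
        rw [aeval_polyOf, Finset.sum_mul]
        refine Finset.sum_congr rfl fun a _ => ?_
        rw [map_mul, map_pow]; ring
      rw [e1, hrel, hq, Finset.mul_sum]
      refine Finset.sum_congr rfl fun s _ => ?_
      ring)
    intro s
    exact congrFun this s
  funext s a
  have hs := key s
  rw [sub_eq_zero] at hs
  have hq0 : q s = 0 := by
    by_contra hne
    have h2 : (polyOf (γ s)).degree < (g.natDegree : WithBot ℕ) := polyOf_degree_lt _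
    have hpne : polyOf (γ s) ≠ 0 := by
      rw [hs]; exact mul_ne_zero hgm.ne_zero hne
    have h3 : (polyOf (γ s)).natDegree < g.natDegree :=
      (natDegree_lt_iff_degree_lt hpne).mpr h2
    rw [hs, natDegree_mul hgm.ne_zero hne, hdeg] at h3
    omega
  rw [hq0, mul_zero] at hs
  have := polyOf_coeff (γ s) a
  rw [hs, coeff_zero] at this
  simpa using this.symm


/-- **Saturation.**  If `a β ∈ ι B` (`a ≠ 0`) and `g(ι x) β ∈ ι B` with `ḡ(x̄) ≠ 0`, then
`β ∈ ι B`. -/
theorem mem_of_scale_of_mul (h : RedStr π ι ρ) (hι : Function.Injective ι)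
    {B : Subalgebra A V} {x : V}
    (content : ∀ b ∈ B, b ≠ 0 → ∃ c : A, c ≠ 0 ∧ ∃ b' ∈ B, b = c • b' ∧ ρ b' ≠ 0)
    (g : A[X]) (hgx : aeval (ρ x) (g.map π) ≠ 0)
    (β : F) (a : A) (ha : a ≠ 0) (b : V) (hb : b ∈ B) (hab : algebraMap L F (a : L) * β = ι b)
    (w : V) (hgw : ι w = aeval (ι x) (g.map (algebraMap A L)) * β) :
    ∃ v ∈ B, ι v = β := by
  have haL : algebraMap L F (a : L) ≠ 0 := by
    rw [Ne, map_eq_zero]
    exact fun h0 => ha (Subtype.ext h0)
  by_cases hb0 : b = 0
  · refine ⟨0, B.zero_mem, ?_⟩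
    rw [hb0, map_zero] at hab
    rw [map_zero]
    exact ((mul_eq_zero.mp hab).resolve_left haL).symm
  obtain ⟨c, hc0, b', hb', hbc, hρb'⟩ := content b hb hb0
  have hcL : algebraMap L F (c : L) ≠ 0 := by
    rw [Ne, map_eq_zero]
    exact fun h0 => hc0 (Subtype.ext h0)
  rw [hbc, h.iota_smul] at hab
  rcases ValuationRing.dvd_total a c with ⟨t, ht⟩ | ⟨t, ht⟩
  · -- `c = a t`
    refine ⟨t • b', B.smul_mem hb' t, ?_⟩
    rw [h.iota_smul]
    have hct : (c : L) = (a : L) * (t : L) := by rw [ht]; rfl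
    have : algebraMap L F (a : L) * β = algebraMap L F (a : L) * (algebraMap L F (t : L) * ι b') := by
      rw [hab, hct, map_mul]; ring
    exact (mul_left_cancel₀ haL this).symm
  · -- `a = c t`
    by_cases htu : IsUnit t
    · obtain ⟨u, rfl⟩ := htu
      refine ⟨(↑u⁻¹ : A) • b', B.smul_mem hb' _, ?_⟩
      rw [h.iota_smul]
      have hact : (a : L) = (c : L) * ((u : A) : L) := by rw [ht]; rfl
      have hu : ((u : A) : L) * (((↑u⁻¹ : A)) : L) = 1 := by
        have h1 : ((u : A) * (↑u⁻¹ : A) : A) = 1 := Units.mul_inv u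
        have h2 := congrArg (fun y : A => (y : L)) h1
        exact h2
      have e : algebraMap L F (a : L) * β
          = algebraMap L F (a : L) * (algebraMap L F (((↑u⁻¹ : A)) : L) * ι b') := by
        rw [hab, hact, ← mul_assoc, ← map_mul, mul_assoc (c : L), hu, mul_one]
      exact (mul_left_cancel₀ haL e).symm
    · exfalso
      have hπt : π t = 0 := by
        rw [h.pi_eq_zero_iff]
        exact (IsLocalRing.mem_maximalIdeal t).mpr htu
      -- `t β = ι b'`
      have h1 : algebraMap L F (t : L) * β = ι b' := by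
        have : algebraMap L F (c : L) * (algebraMap L F (t : L) * β)
            = algebraMap L F (c : L) * ι b' := by
          have hact : (a : L) = (c : L) * (t : L) := by rw [ht]; rfl
          rw [← hab, hact, map_mul]; ring
        exact mul_left_cancel₀ hcL this
      have h2 : ι (aeval x g * b') = ι (t • w) := by
        rw [map_mul, iota_aeval h, h.iota_smul, hgw, ← h1]
        ring
      have h3 := congrArg ρ (hι h2)
      rw [map_mul, rho_aeval h, h.rho_smul, hπt, map_zero, zero_mul] at h3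
      rcases mul_eq_zero.mp h3 with h4 | h4
      · exact hgx h4
      · exact hρb' h4


/-- clearing denominators of a polynomial over `L = Frac A` -/
theorem exists_scale_poly (P : L[X]) :
    ∃ a : A, a ≠ 0 ∧ ∃ P' : A[X], P'.map (algebraMap A L) = C (a : L) * P := by
  obtain ⟨b, hbM, hb⟩ := IsLocalization.integerNormalization_spec (nonZeroDivisors A) P
  refine ⟨b, nonZeroDivisors.ne_zero hbM,
    IsLocalization.integerNormalization (nonZeroDivisors A) P, ?_⟩
  rw [hb]
  ext n
  simp [Algebra.smul_def]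

/-- Elements of the `L[x]`-span of `ι B` can be scaled into `ι B`. -/
theorem exists_scale (h : RedStr π ι ρ) {B : Subalgebra A V} {x : V} (hx : x ∈ B)
    {f : F} (hf : f ∈ Submodule.span (aeval (ι x) : L[X] →ₐ[L] F).range (ι '' (B : Set V))) :
    ∃ a : A, a ≠ 0 ∧ ∃ b ∈ B, algebraMap L F (a : L) * f = ι b := by
  induction hf using Submodule.span_induction with
  | mem f hf =>
    obtain ⟨b, hb, rfl⟩ := hf
    exact ⟨1, one_ne_zero, b, hb, by simp⟩
  | zero => exact ⟨1, one_ne_zero, 0, B.zero_mem, by simp⟩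
  | add f₁ f₂ _ _ h₁ h₂ =>
    obtain ⟨a₁, ha₁, b₁, hb₁, e₁⟩ := h₁
    obtain ⟨a₂, ha₂, b₂, hb₂, e₂⟩ := h₂
    refine ⟨a₁ * a₂, mul_ne_zero ha₁ ha₂, a₂ • b₁ + a₁ • b₂,
      B.add_mem (B.smul_mem hb₁ _) (B.smul_mem hb₂ _), ?_⟩
    rw [map_add, h.iota_smul, h.iota_smul, ← e₁, ← e₂]
    have : ((a₁ * a₂ : A) : L) = (a₁ : L) * (a₂ : L) := rfl
    rw [this, map_mul]
    ring
  | smul r f _ hf =>
    obtain ⟨a, ha, b, hb, e⟩ := hf
    obtain ⟨P, hP⟩ := r.2
    obtain ⟨a', ha', P', hP'⟩ := exists_scale_poly (A := A) P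
    refine ⟨a' * a, mul_ne_zero ha' ha, aeval x P' * b, B.mul_mem (aeval_mem hx P') hb, ?_⟩
    rw [map_mul, iota_aeval h, hP', ← e]
    have h1 : ((a' * a : A) : L) = (a' : L) * (a : L) := rfl
    have h2 : r • f = aeval (ι x) P * f := by
      rw [Subalgebra.smul_def, smul_eq_mul]
      congr 1
      exact hP.symm
    rw [h1, map_mul, h2, map_mul, aeval_C]
    ring

/-- **Generic fibre.**  If any `n + 1` elements of `B` are dependent over `L[x]`, then any
`r > n · deg g` elements of `B` are `L`-linearly dependent modulo `g(x) · L[x]⟨ι B⟩`. -/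
theorem exists_dep_mod (h : RedStr π ι ρ) {B : Subalgebra A V} {x : V} (hx : x ∈ B) (n : ℕ)
    (hgen : ∀ z : Fin (n + 1) → V, (∀ i, z i ∈ B) →
      ∃ p : Fin (n + 1) → L[X], (∃ i, aeval (ι x) (p i) ≠ 0) ∧
        ∑ i, aeval (ι x) (p i) * ι (z i) = 0)
    (g : A[X]) (hg : g.Monic) {r : ℕ} (hr : n * g.natDegree < r) (z : Fin r → V)
    (hz : ∀ i, z i ∈ B) :
    ∃ c : Fin r → L, (∃ i, c i ≠ 0) ∧ ∃ β : F,
      ∑ i, algebraMap L F (c i) * ι (z i) = aeval (ι x) (g.map (algebraMap A L)) * β ∧
      ∃ a : A, a ≠ 0 ∧ ∃ b ∈ B, algebraMap L F (a : L) * β = ι b := by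
  classical
  set R₀ : Subalgebra L F := (aeval (ι x) : L[X] →ₐ[L] F).range with hR₀
  let φ : L[X] →ₐ[L] R₀ := (aeval (ι x) : L[X] →ₐ[L] F).rangeRestrict
  have hφ : Function.Surjective φ := AlgHom.rangeRestrict_surjective _
  have hφv : ∀ P : L[X], ((φ P : R₀) : F) = aeval (ι x) P := fun P => rfl
  haveI : IsPrincipalIdealRing R₀ := IsPrincipalIdealRing.of_surjective φ.toRingHom hφ
  set M : Submodule R₀ F := Submodule.span R₀ (Set.range fun i => ι (z i)) with hM
  have hMle : ∀ f ∈ M, f ∈ Submodule.span R₀ (ι '' (B : Set V)) := by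
    intro f hf
    refine Submodule.span_mono ?_ hf
    rintro _ ⟨i, rfl⟩
    exact ⟨z i, hz i, rfl⟩
  haveI : Module.Finite R₀ M := Module.Finite.span_of_finite R₀ (Set.finite_range _)
  haveI : Module.IsTorsionFree R₀ M := by
    refine Module.IsTorsionFree.of_smul_eq_zero fun a m ham => ?_
    have h1 : ((a • m : M) : F) = 0 := by rw [ham]; rfl
    rw [Submodule.coe_smul, Subalgebra.smul_def, smul_eq_mul] at h1
    rcases mul_eq_zero.mp h1 with h2 | h2
    · left; exact Subtype.ext h2
    · right; exact Subtype.ext h2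
  haveI : Module.Free R₀ M := Module.free_of_finite_type_torsion_free'
  set m := Module.finrank R₀ M with hm
  let bM : Module.Basis (Fin m) R₀ M := Module.finBasis R₀ M
  -- the rank of `M` is at most `n`
  have hmn : m ≤ n := by
    by_contra hlt
    rw [not_le] at hlt
    have hscale : ∀ s : Fin m, ∃ a : A, a ≠ 0 ∧ ∃ b ∈ B,
        algebraMap L F (a : L) * ((bM s : M) : F) = ι b :=
      fun s => exists_scale h hx (hMle _ (bM s).2)
    choose a ha b hb hab using hscale
    obtain ⟨p, ⟨i₀, hi₀⟩, hp⟩ := hgen (fun i => b (Fin.castLE hlt i)) (fun i => hb _)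
    have hrel : ∑ i : Fin (n + 1),
        (φ (p i * C ((a (Fin.castLE hlt i) : A) : L))) • bM (Fin.castLE hlt i) = 0 := by
      apply Subtype.ext
      rw [Submodule.coe_sum, Submodule.coe_zero, ← hp]
      refine Finset.sum_congr rfl fun i _ => ?_
      rw [Submodule.coe_smul, Subalgebra.smul_def, smul_eq_mul, hφv, map_mul, aeval_C,
        ← hab, mul_assoc]
    have hli : LinearIndependent R₀ (fun i : Fin (n + 1) => bM (Fin.castLE hlt i)) :=
      bM.linearIndependent.comp _ (Fin.castLE_injective hlt)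
    have h0 := Fintype.linearIndependent_iff.mp hli _ hrel i₀
    have h1 : ((φ (p i₀ * C ((a (Fin.castLE hlt i₀) : A) : L)) : R₀) : F) = 0 := by
      rw [h0]; rfl
    rw [hφv, map_mul, aeval_C] at h1
    rcases mul_eq_zero.mp h1 with h2 | h2
    · exact hi₀ h2
    · rw [map_eq_zero] at h2
      exact ha _ (Subtype.ext h2)
  -- coordinates of the `ι (z i)`
  have hzM : ∀ i, ι (z i) ∈ M := fun i => Submodule.subset_span ⟨i, rfl⟩
  have hcoord : ∀ i s, ∃ P : L[X], φ P = bM.repr ⟨ι (z i), hzM i⟩ s := fun i s => hφ _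
  choose P hP using hcoord
  set g' : L[X] := g.map (algebraMap A L) with hg'
  have hg'm : g'.Monic := hg.map _
  have hg'd : g'.natDegree = g.natDegree := hg.natDegree_map _
  set d := g.natDegree with hd
  -- the vectors of remainders
  let v : Fin r → (Fin m × Fin d → L) := fun i sa => (P i sa.1 %ₘ g').coeff (sa.2 : ℕ)
  have hnli : ¬ LinearIndependent L v := by
    intro hli
    have := hli.fintype_card_le_finrank
    rw [Module.finrank_fintype_fun_eq_card, Fintype.card_fin, Fintype.card_prod, Fintype.card_fin,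
      Fintype.card_fin] at this
    have : m * d ≤ n * d := Nat.mul_le_mul_right d hmn
    omega
  obtain ⟨c, hc, hc0⟩ := Fintype.not_linearIndependent_iff.mp hnli
  have hrem : ∀ s, ∑ i, C (c i) * (P i s %ₘ g') = 0 := by
    intro s
    ext j
    rw [finsetSum_coeff, coeff_zero]
    by_cases hj : j < d
    · have := congrFun hc (s, ⟨j, hj⟩)
      simp only [Finset.sum_apply, Pi.smul_apply, smul_eq_mul, Pi.zero_apply] at this
      rw [← this]
      refine Finset.sum_congr rfl fun i _ => ?_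
      rw [coeff_C_mul]
    · refine Finset.sum_eq_zero fun i _ => ?_
      have hlt : (P i s %ₘ g').degree < (j : WithBot ℕ) := by
        refine lt_of_lt_of_le (degree_modByMonic_lt _ hg'm) ?_
        rw [degree_eq_natDegree hg'm.ne_zero, hg'd]
        exact_mod_cast (not_lt.mp hj)
      rw [coeff_C_mul, coeff_eq_zero_of_degree_lt hlt, mul_zero]
  -- the quotients
  let Q : Fin m → L[X] := fun s => ∑ i, C (c i) * (P i s /ₘ g')
  have hsum : ∀ s, ∑ i, C (c i) * P i s = g' * Q s := by
    intro s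
    have h1 : ∀ i, C (c i) * P i s
        = C (c i) * (P i s %ₘ g') + g' * (C (c i) * (P i s /ₘ g')) := by
      intro i
      conv_lhs => rw [← modByMonic_add_div (P i s) g']
      ring
    rw [Finset.sum_congr rfl fun i _ => h1 i, Finset.sum_add_distrib, hrem s, zero_add,
      ← Finset.mul_sum]
  have hzrepr : ∀ i, ι (z i) = ∑ s, aeval (ι x) (P i s) * ((bM s : M) : F) := by
    intro i
    have h1 := bM.sum_repr ⟨ι (z i), hzM i⟩
    have h2 := congrArg (fun y : M => (y : F)) h1
    simp only [Submodule.coe_sum, Submodule.coe_smul] at h2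
    rw [← h2]
    refine Finset.sum_congr rfl fun s _ => ?_
    rw [← hP i s, Subalgebra.smul_def, smul_eq_mul, hφv]
  refine ⟨c, hc0, ∑ s, aeval (ι x) (Q s) * ((bM s : M) : F), ?_, ?_⟩
  · calc ∑ i, algebraMap L F (c i) * ι (z i)
        = ∑ i, ∑ s, aeval (ι x) (C (c i) * P i s) * ((bM s : M) : F) := by
          refine Finset.sum_congr rfl fun i _ => ?_
          rw [hzrepr i, Finset.mul_sum]
          refine Finset.sum_congr rfl fun s _ => ?_
          rw [map_mul, aeval_C]; ring
      _ = ∑ s, aeval (ι x) (∑ i, C (c i) * P i s) * ((bM s : M) : F) := by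
          rw [Finset.sum_comm]
          refine Finset.sum_congr rfl fun s _ => ?_
          rw [map_sum, Finset.sum_mul]
      _ = aeval (ι x) g' * ∑ s, aeval (ι x) (Q s) * ((bM s : M) : F) := by
          rw [Finset.mul_sum]
          refine Finset.sum_congr rfl fun s _ => ?_
          rw [hsum s, map_mul]; ring
  · refine exists_scale h hx (hMle _ ?_)
    refine Submodule.sum_mem _ fun s _ => ?_
    have : aeval (ι x) (Q s) * ((bM s : M) : F) = ((φ (Q s) • bM s : M) : F) := by
      rw [Submodule.coe_smul, Subalgebra.smul_def, smul_eq_mul, hφv]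
    rw [this]
    exact (φ (Q s) • bM s).2


/-- In a valuation ring, a nonzero finite family can be scaled so that all entries are integral
and one of them is `1`. -/
theorem exists_normalise {r : ℕ} (c : Fin r → L) (hc : ∃ i, c i ≠ 0) :
    ∃ i₀, c i₀ ≠ 0 ∧ ∀ i, c i / c i₀ ∈ A := by
  classical
  obtain ⟨i₁, hi₁⟩ := hc
  obtain ⟨i₀, -, hmax⟩ := Finset.exists_max_image Finset.univ (fun i => A.valuation (c i))
    ⟨i₁, Finset.mem_univ _⟩
  have h0 : c i₀ ≠ 0 := by
    intro h0
    have := hmax i₁ (Finset.mem_univ _)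
    rw [h0, map_zero] at this
    exact hi₁ ((map_eq_zero _).mp (le_antisymm this zero_le))
  refine ⟨i₀, h0, fun i => ?_⟩
  rw [← A.valuation_le_one_iff, map_div₀]
  exact div_le_one_of_le₀ (hmax i (Finset.mem_univ _)) zero_le

/-- **`Chart.fin` from content, generic rank and a basis of the special fibre.** -/
theorem fin_of_content (h : RedStr π ι ρ) (hι : Function.Injective ι)
    {B : Subalgebra A V} {x : V} (hx : x ∈ B)
    (content : ∀ b ∈ B, b ≠ 0 → ∃ c : A, c ≠ 0 ∧ ∃ b' ∈ B, b = c • b' ∧ ρ b' ≠ 0)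
    (n : ℕ)
    (hgen : ∀ z : Fin (n + 1) → V, (∀ i, z i ∈ B) →
      ∃ p : Fin (n + 1) → L[X], (∃ i, aeval (ι x) (p i) ≠ 0) ∧
        ∑ i, aeval (ι x) (p i) * ι (z i) = 0)
    (c : Fin n → V) (hc : ∀ s, c s ∈ B)
    (hspan : ∀ b ∈ B, ∃ p : Fin n → k[X], ρ b = ∑ s, aeval (ρ x) (p s) * ρ (c s))
    (hind : ∀ p : Fin n → k[X], ∑ s, aeval (ρ x) (p s) * ρ (c s) = 0 → p = 0) :
    ∀ g : A[X], g.Monic → ∃ (r : ℕ) (e' : Fin r → V), (∀ j, e' j ∈ B) ∧
      ∀ z ∈ B, ∃ α : Fin r → A, ∃ z' ∈ B, z = ∑ j, α j • e' j + aeval x g * z' := by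
  classical
  intro g hg
  set d := g.natDegree with hd
  -- `ḡ(x̄) ≠ 0`
  have hgx : aeval (ρ x) (g.map π) ≠ 0 := by
    intro h0
    rcases Nat.eq_zero_or_pos n with hn | hn
    · subst hn
      obtain ⟨p, hp⟩ := hspan 1 B.one_mem
      rw [map_one, Finset.univ_eq_empty, Finset.sum_empty] at hp
      exact one_ne_zero hp
    · have := hind (Pi.single ⟨0, hn⟩ (g.map π)) (by
        rw [Finset.sum_eq_single (⟨0, hn⟩ : Fin n)]
        · rw [Pi.single_eq_same, h0, zero_mul]
        · intro s _ hs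
          rw [Pi.single_eq_of_ne hs, map_zero, zero_mul]
        · intro hs; exact absurd (Finset.mem_univ _) hs)
      have h1 := congrFun this ⟨0, hn⟩
      rw [Pi.single_eq_same, Pi.zero_apply] at h1
      exact (hg.map π).ne_zero h1
  let e' : Fin (n * d) → V := fun t =>
    x ^ ((finProdFinEquiv.symm t).2 : ℕ) * c (finProdFinEquiv.symm t).1
  refine ⟨n * d, e', fun t => B.mul_mem (B.pow_mem hx _) (hc _), fun z hz => ?_⟩
  -- the family `z, e'`
  let zz : Fin (n * d + 1) → V := Fin.cons z e'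
  have hzz : ∀ i, zz i ∈ B := by
    intro i
    refine Fin.cases ?_ (fun j => ?_) i
    · simpa [zz] using hz
    · simpa [zz] using B.mul_mem (B.pow_mem hx _) (hc _)
  obtain ⟨c₀, hc₀, β, hβ, a, ha, b, hb, hab⟩ :=
    exists_dep_mod h hx n hgen g hg (Nat.lt_succ_self (n * d)) zz hzz
  obtain ⟨i₀, hi₀, hint⟩ := exists_normalise (A := A) c₀ hc₀
  let c' : Fin (n * d + 1) → A := fun i => ⟨c₀ i / c₀ i₀, hint i⟩
  have hc'1 : c' i₀ = 1 := Subtype.ext (div_self hi₀)
  set β' : F := β / algebraMap L F (c₀ i₀) with hβ'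
  have hu0 : algebraMap L F (c₀ i₀) ≠ 0 := by rw [Ne, map_eq_zero]; exact hi₀
  set w : V := ∑ i, c' i • zz i with hw
  have hwB : w ∈ B := B.sum_mem fun i _ => B.smul_mem (hzz i) _
  have hιw : ι w = aeval (ι x) (g.map (algebraMap A L)) * β' := by
    rw [hw, map_sum, hβ', ← mul_div_assoc, ← hβ, Finset.sum_div]
    refine Finset.sum_congr rfl fun i _ => ?_
    rw [h.iota_smul]
    change algebraMap L F (c₀ i / c₀ i₀) * ι (zz i) = _
    rw [map_div₀]; ring
  -- scale `β'` into `ι B`
  obtain ⟨a'', ha'', b'', hb'', hab''⟩ : ∃ a'' : A, a'' ≠ 0 ∧ ∃ b'' ∈ B,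
      algebraMap L F (a'' : L) * β' = ι b'' := by
    rcases A.mem_or_inv_mem (c₀ i₀) with hu | hu
    · refine ⟨a * ⟨c₀ i₀, hu⟩, mul_ne_zero ha (fun h0 => hi₀ (congrArg Subtype.val h0)),
        b, hb, ?_⟩
      rw [← hab, hβ']
      change algebraMap L F ((a : L) * c₀ i₀) * _ = _
      rw [map_mul]
      field_simp
    · refine ⟨a, ha, (⟨(c₀ i₀)⁻¹, hu⟩ : A) • b, B.smul_mem hb _, ?_⟩
      rw [h.iota_smul, ← hab, hβ']
      change _ = algebraMap L F ((c₀ i₀)⁻¹) * _
      rw [map_inv₀]
      field_simp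
  obtain ⟨v, hvB, hv⟩ := mem_of_scale_of_mul h hι content g hgx β' a'' ha'' b'' hb'' hab'' w hιw
  have hwv : w = aeval x g * v := by
    apply hι
    rw [hιw, map_mul, iota_aeval h, hv]
  -- split off the coefficient of `z`
  have hsplit : w = c' 0 • z + ∑ j, c' (Fin.succ j) • e' j := by
    rw [hw, Fin.sum_univ_succ]
    simp [zz]
  -- the coefficient of `z` is a unit
  have hunit : IsUnit (c' 0) := by
    by_contra hnu
    have hπ0 : π (c' 0) = 0 := by
      rw [h.pi_eq_zero_iff]; exact (IsLocalRing.mem_maximalIdeal _).mpr hnu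
    have hρ := congrArg ρ hsplit
    rw [hwv, map_mul, rho_aeval h, map_add, h.rho_smul, hπ0, map_zero, zero_mul, zero_add,
      map_sum] at hρ
    have hγ := indep_mod (π := π) (ρ := ρ) (B := B) (x := x) c hspan hind g hg
      (fun s a => π (c' (Fin.succ (finProdFinEquiv (s, a))))) v hvB (by
        rw [hρ, ← Equiv.sum_comp finProdFinEquiv, Fintype.sum_prod_type]
        refine Finset.sum_congr rfl fun s _ => Finset.sum_congr rfl fun a _ => ?_
        rw [h.rho_smul]
        simp only [e', Equiv.symm_apply_apply])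
    have hi0 : i₀ ≠ 0 := by
      intro h0
      rw [h0] at hc'1
      rw [hc'1] at hnu
      exact hnu isUnit_one
    obtain ⟨j₀, hj₀⟩ := Fin.exists_succ_eq.mpr hi0
    have h1 := congrFun (congrFun hγ (finProdFinEquiv.symm j₀).1) (finProdFinEquiv.symm j₀).2
    simp only [Prod.mk.eta, Equiv.apply_symm_apply, hj₀, hc'1, map_one, Pi.zero_apply] at h1
    exact one_ne_zero h1
  obtain ⟨u, hu⟩ := hunit
  refine ⟨fun j => -(↑u⁻¹ : A) * c' (Fin.succ j), (↑u⁻¹ : A) • v, B.smul_mem hvB _, ?_⟩
  have hz : z = (↑u⁻¹ : A) • (c' 0 • z) := by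
    rw [← hu, smul_smul, Units.inv_mul, one_smul]
  have h2 : c' 0 • z = aeval x g * v - ∑ j, c' (Fin.succ j) • e' j := by
    rw [← hwv, hsplit]; ring
  rw [hz, h2, smul_sub, Finset.smul_sum, mul_smul_comm, sub_eq_add_neg, add_comm,
    ← Finset.sum_neg_distrib]
  congr 1
  refine Finset.sum_congr rfl fun j _ => ?_
  simp only [smul_smul, neg_mul, neg_smul]

end Fermat.Agent.S37.H638.Fin
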